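import Fermat.Agent.S35.G.Spec
import Fermat.Agent.A2.H129.Kummer
import Fermat.Agent.S18.H504.ConstF

/-!
# S35, piece (G'), leaf T0F — the Kummer dictionary (helper850)

`t0f : T0FStatement` : the Kummer form `KummerFrobAt M q m` of (G') implies `NewPartFrobAt M q m`.

* `ord_frobSub`, `ord_frobPoly` : the divisor of `(φ - 1)² (φ - Q) f` (multiplicative notation).
* `frobPolyAdd_mk_eq_zero` : generic Kummer dictionary for a semilinear automorphism `g`:
  `m D = div f` and `(g - 1)² (g - Q) f = c · y ^ m` imply `(g - 1)² (g - Q) [D] = 0` in `Pic0`.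
* `normPow_of_push_eq_zero` : `m D = div f` and `φ_* [D] = 0` imply `N_φ f = c · g ^ m`, as soon as
  functions on the target without zeros and poles are constant.
-/

set_option autoImplicit false
set_option linter.style.haveILetI false

noncomputable section

namespace Fermat.Agent.S35.G.H850

open AlgebraicCurve ModularCurve Fermat.Agent.S35.G

section Generic

variable {K F : Type*} [Field K] [Field F] [Algebra K F]

theorem frobSub_ne_zero (φ : F ≃+* F) (Q : ℕ) {f : F} (hf : f ≠ 0) : frobSub φ Q f ≠ 0 := by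
  unfold frobSub
  have h1 : φ f ≠ 0 := by simpa using hf
  exact mul_ne_zero h1 (inv_ne_zero (pow_ne_zero Q hf))

/-- The divisor of `(g - Q) h`. -/
theorem ord_frobSub (g : SemilinearAut K F) (Q : ℕ) {h : F} (hh : h ≠ 0) (w : Place K F) :
    w.ord (frobSub (SemilinearAut.toRingAut g) Q h) = (g⁻¹ • w).ord h - (Q : ℤ) * w.ord h := by
  have hτh : SemilinearAut.toRingAut g h ≠ 0 := by simpa using hh
  unfold frobSub
  rw [A2.H129.ord_div w hτh (pow_ne_zero Q hh), A2.H129.ord_smul_eq, A2.H129.ord_pow]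

/-- The divisor of `(g - 1)² (g - Q) f`. -/
theorem ord_frobPoly (g : SemilinearAut K F) (Q : ℕ) {f : F} (hf : f ≠ 0) (w : Place K F) :
    w.ord (frobPoly (SemilinearAut.toRingAut g) Q f) =
      ((g⁻¹ • (g⁻¹ • (g⁻¹ • w))).ord f - (g⁻¹ • (g⁻¹ • w)).ord f
          - ((g⁻¹ • (g⁻¹ • w)).ord f - (g⁻¹ • w).ord f))
        - (Q : ℤ) * (((g⁻¹ • (g⁻¹ • w)).ord f - (g⁻¹ • w).ord f)
          - ((g⁻¹ • w).ord f - w.ord f)) := by
  have h1 : frobSub (SemilinearAut.toRingAut g) 1 f ≠ 0 := frobSub_ne_zero _ 1 hf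
  have h2 : frobSub (SemilinearAut.toRingAut g) 1 (frobSub (SemilinearAut.toRingAut g) 1 f) ≠ 0 :=
    frobSub_ne_zero _ 1 h1
  unfold frobPoly
  rw [ord_frobSub g Q h2, ord_frobSub g 1 h1, ord_frobSub g 1 h1, ord_frobSub g 1 hf,
    ord_frobSub g 1 hf, ord_frobSub g 1 hf]
  push_cast
  ring

/-- **Generic Kummer dictionary.**  If `m D = div f` and `(g - 1)² (g - Q) f` is a constant times
an `m`-th power, then `(g - 1)² (g - Q)` kills the class of `D`. -/
theorem frobPolyAdd_mk_eq_zero (g : SemilinearAut K F) (m : ℕ) (hm : m ≠ 0) (Q : ℕ)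
    (D : Divisor.degZero (K := K) (F := F)) {f : F} (hf : f ≠ 0)
    (hfD : ∀ v : Place K F, v.ord f = (m : ℤ) * (D : Divisor K F) v)
    {c : K} {y : F} (hc : c ≠ 0)
    (hy : frobPoly (SemilinearAut.toRingAut g) Q f = algebraMap K F c * y ^ m) :
    frobPolyAdd g Q (Pic0.mk D) = 0 := by
  have hP : frobPoly (SemilinearAut.toRingAut g) Q f ≠ 0 := by
    unfold frobPoly
    exact frobSub_ne_zero _ _ (frobSub_ne_zero _ _ (frobSub_ne_zero _ _ hf))
  have hy0 : y ≠ 0 := by
    rintro rfl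
    rw [zero_pow hm, mul_zero] at hy
    exact hP hy
  have hcF : algebraMap K F c ≠ 0 := by simpa using hc
  set E1 : Divisor.degZero (K := K) (F := F) := SemilinearAut.degZeroSMulHom g D - D with hE1
  set E2 : Divisor.degZero (K := K) (F := F) := SemilinearAut.degZeroSMulHom g E1 - E1 with hE2
  set E : Divisor.degZero (K := K) (F := F) := SemilinearAut.degZeroSMulHom g E2 - Q • E2 with hE
  have hgoal : frobPolyAdd g Q (Pic0.mk D) = Pic0.mk E := by
    unfold frobPolyAdd
    rw [SemilinearAut.pic0_smul_mk]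
    have e1 : Pic0.mk (SemilinearAut.degZeroSMulHom g D) - Pic0.mk D = Pic0.mk E1 := rfl
    rw [e1, SemilinearAut.pic0_smul_mk]
    have e2 : Pic0.mk (SemilinearAut.degZeroSMulHom g E1) - Pic0.mk E1 = Pic0.mk E2 := rfl
    rw [e2, SemilinearAut.pic0_smul_mk]
    rfl
  rw [hgoal]
  refine (QuotientAddGroup.eq_zero_iff E).2 ?_
  rw [AddSubgroup.mem_addSubgroupOf]
  refine ⟨y, hy0, fun w => ?_⟩
  have hEw : (E : Divisor K F) w =
      (((D : Divisor K F) (g⁻¹ • (g⁻¹ • (g⁻¹ • w))) - (D : Divisor K F) (g⁻¹ • (g⁻¹ • w)))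
          - ((D : Divisor K F) (g⁻¹ • (g⁻¹ • w)) - (D : Divisor K F) (g⁻¹ • w)))
        - (Q : ℤ) * ((((D : Divisor K F) (g⁻¹ • (g⁻¹ • w)) - (D : Divisor K F) (g⁻¹ • w)))
          - ((D : Divisor K F) (g⁻¹ • w) - (D : Divisor K F) w)) := by
    simp only [hE, hE2, hE1, AddSubgroupClass.coe_sub, SemilinearAut.coe_degZeroSMulHom, smul_sub,
      Finsupp.sub_apply, SemilinearAut.divisor_smul_apply, AddSubgroupClass.coe_nsmul,
      Finsupp.smul_apply, nsmul_eq_mul]
    ring
  have hord2 : w.ord (frobPoly (SemilinearAut.toRingAut g) Q f) = (m : ℤ) * w.ord y := by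
    rw [hy, w.ord_mul hcF (pow_ne_zero m hy0), A2.H129.ord_algebraMap_eq_zero, zero_add,
      A2.H129.ord_pow]
  have hmE : (m : ℤ) * (E : Divisor K F) w = (m : ℤ) * w.ord y := by
    rw [← hord2, ord_frobPoly g Q hf w, hEw, hfD, hfD, hfD, hfD]
    ring
  have hm' : (m : ℤ) ≠ 0 := by exact_mod_cast hm
  exact mul_left_cancel₀ hm' hmE

end Generic

section Push

variable {K F F' : Type*} [Field K] [Field F] [Field F'] [Algebra K F] [Algebra K F']

/-- **Norms of Kummer functions.**  If `m D = div f` and the push-forward of `[D]` along `φ`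
vanishes, then `N_φ f` is a constant times an `m`-th power (functions on the target without zeros
and poles being constant). -/
theorem normPow_of_push_eq_zero (φ : F →ₐ[K] F') (hφ : φ.toRingHom.IsIntegral)
    (hfin : FiniteAlong K φ) (hN : NormFormulaAlong K φ hfin)
    (hconst : ∀ u : F, u ≠ 0 → (∀ v : Place K F, v.ord u = 0) → ∃ c : K, u = algebraMap K F c)
    (m : ℕ) (D : Divisor.degZero (K := K) (F := F')) {f : F'} (hf : f ≠ 0)
    (hfD : ∀ v : Place K F', v.ord f = (m : ℤ) * (D : Divisor K F') v)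
    (hpush : pic0Push φ hφ hfin hN (Pic0.mk D) = 0) :
    NormPow φ m f := by
  rw [pic0Push_mk, S29.H395.mk_eq_zero_iff] at hpush
  obtain ⟨g, hg, hgD⟩ := hpush
  have hgD' : ∀ v : Place K F, Divisor.pushforwardAlong φ hφ (D : Divisor K F') v = v.ord g :=
    fun v => hgD v
  have hNf : S29.H395.normAlong φ f ≠ 0 := S29.H395.normAlong_ne_zero φ hfin hf
  have hmD : ∀ w : Place K F', ((m : ℤ) • (D : Divisor K F')) w = w.ord f := fun w => by
    rw [Finsupp.smul_apply, smul_eq_mul, hfD w]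
  have hord : ∀ v : Place K F, v.ord (S29.H395.normAlong φ f) = (m : ℤ) * v.ord g := by
    intro v
    have h := S29.H395.pushforwardAlong_apply_eq_ord φ hφ hfin hN hf hmD v
    rw [map_zsmul, Finsupp.smul_apply, smul_eq_mul, hgD' v] at h
    exact h.symm
  have hgm : g ^ m ≠ 0 := pow_ne_zero m hg
  have hu : S29.H395.normAlong φ f * (g ^ m)⁻¹ ≠ 0 := mul_ne_zero hNf (inv_ne_zero hgm)
  obtain ⟨c, hc⟩ := hconst _ hu (fun v => by
    rw [A2.H129.ord_div v hNf hgm, hord v, A2.H129.ord_pow, sub_self])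
  refine ⟨c, g, ?_⟩
  rw [← hc, inv_mul_cancel_right₀ hgm]

end Push

/-- **T0F (Kummer dictionary).** -/
theorem t0f : T0FStatement := by
  intro M q m _ _ _hq _hqM hm _hqm hPA hPB hK A hA s hs x hmx hax hbx
  obtain ⟨hα, hfinα, hNα⟩ := hPA
  obtain ⟨hβ, hfinβ, hNβ⟩ := hPB
  obtain ⟨D, rfl⟩ := Pic0.mk_surjective x
  -- the Kummer generator
  have hprin : ((m • D : Divisor.degZero (K := Qb) (F := modularFunctionFieldBar (M * q))) :
      Divisor Qb (modularFunctionFieldBar (M * q))) ∈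
      Divisor.principal (K := Qb) (F := modularFunctionFieldBar (M * q)) := by
    have h0 : Pic0.mk (m • D) = 0 := hmx
    have := (QuotientAddGroup.eq_zero_iff (m • D)).1 h0
    simpa [AddSubgroup.mem_addSubgroupOf] using this
  obtain ⟨f, hf, hfD⟩ := hprin
  have hfD' : ∀ v : Place Qb (modularFunctionFieldBar (M * q)),
      v.ord f = (m : ℤ) * (D : Divisor Qb (modularFunctionFieldBar (M * q))) v := by
    intro v
    rw [← hfD v]
    simp [Finsupp.smul_apply]
  -- the two norms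
  have hconst := S18.H504.constOfOrdZero_modularFunctionFieldBar M
  have hnα : NormPow (heckeAlphaBar Qb M q) m f := by
    refine normPow_of_push_eq_zero _ hα hfinα hNα hconst m D hf hfD' ?_
    rw [← pic0PushTotal_eq]
    exact hax
  have hnβ : NormPow (heckeBetaBar Qb M q) m f := by
    refine normPow_of_push_eq_zero _ hβ hfinβ hNβ hconst m D hf hfD' ?_
    rw [← pic0PushTotal_eq]
    exact hbx
  obtain ⟨c, y, hc, hy⟩ := hK A hA s hs f hf (fun v => ⟨_, hfD' v⟩) hnα hnβ
  exact frobPolyAdd_mk_eq_zero (arithmeticGalois (modularFunctionFieldFull (M * q)) (s * s)) m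
    hm.ne' (q ^ 2) D hf hfD' hc hy

end Fermat.Agent.S35.G.H850

end
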